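import Mathlib
import Fermat.Agent.LT.T7.H311.ShapeTSpec

/-!
# Row LT, tower T7, cut of `ShapeTC589` (helper311): LEAVES ShT.4 `DContC311`, ShT.5 `DSuppC311`,
# ShT.6 `DIntC311` (helper90, spares)

OFF-MAIN.  Spec: `T7/H311/ShapeTSpec.lean` (helper311, byte-identical copy, with its closure).
No hole, nothing assumed, UNCONDITIONAL.

    dContC311_h90 (F) : H311.DContC311 F
    dSuppC311_h90 (F) : H311.DSuppC311 F
    dIntC311_h90  (F) : H311.DIntC311 F

Two-step inductions on `d` along the recursion of `ST589.dStep589` (used through `rfl` only).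
-/

set_option autoImplicit false
set_option linter.style.haveILetI false

open AutomorphicForm IsDedekindDomain NumberField MeasureTheory

noncomputable section

namespace Fermat.Agent.LT.T7.H90D

open Fermat.Agent.LT.H556 Fermat.Agent.LT.H556.A0 Fermat.Agent.LT.T7
open Fermat.Agent.LT.T7.ST589

variable {F : Type} [Field F] [NumberField F]

/-! ## The recursion -/

theorem dStep_zero90 (v : HeightOneSpectrum (𝓞 F)) (H : Finset (G F)) (z : G F) (f : G F → ℂ)
    (g : G F) : dStep589 v H z 0 f g = 2 * f g := rfl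

theorem dStep_one90 (v : HeightOneSpectrum (𝓞 F)) (H : Finset (G F)) (z : G F) (f : G F → ℂ)
    (g : G F) : dStep589 v H z 1 f g
      = ((Real.sqrt (Ideal.absNorm v.asIdeal : ℝ) : ℝ) : ℂ)⁻¹ * ∑ h ∈ H, f (g * z⁻¹ * h) := rfl

theorem dStep_succ90 (v : HeightOneSpectrum (𝓞 F)) (H : Finset (G F)) (z : G F) (d : ℕ)
    (f : G F → ℂ) (g : G F) : dStep589 v H z (d + 2) f g
      = ((Real.sqrt (Ideal.absNorm v.asIdeal : ℝ) : ℝ) : ℂ)⁻¹
          * ∑ h ∈ H, dStep589 v H z (d + 1) f (g * z⁻¹ * h)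
        - dStep589 v H z d f (g * z⁻¹) := rfl

/-- Two-step induction. -/
theorem two_step90 (P : ℕ → Prop) (h0 : P 0) (h1 : P 1)
    (hs : ∀ d, P d → P (d + 1) → P (d + 2)) : ∀ d, P d := by
  have key : ∀ d, P d ∧ P (d + 1) := by
    intro d
    induction d with
    | zero => exact ⟨h0, h1⟩
    | succ d ih => exact ⟨ih.2, hs d ih.1 ih.2⟩
  exact fun d => (key d).1

/-! ## ShT.4 -/

/-- **LEAF ShT.4 `DContC311`**, VERBATIM. -/
theorem dContC311_h90 (F : Type) [Field F] [NumberField F] : H311.DContC311 F := by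
  intro Ω _ f hf v H z d
  refine two_step90 (fun d => Continuous (fun p : Ω × G F => dStep589 v H z d (f p.1) p.2))
    ?_ ?_ ?_ d
  · show Continuous (fun p : Ω × G F => 2 * f p.1 p.2)
    exact continuous_const.mul hf
  · show Continuous (fun p : Ω × G F =>
      ((Real.sqrt (Ideal.absNorm v.asIdeal : ℝ) : ℝ) : ℂ)⁻¹ * ∑ h ∈ H, f p.1 (p.2 * z⁻¹ * h))
    refine continuous_const.mul (continuous_finsetSum _ fun h _ => ?_)
    have hm : Continuous fun p : Ω × G F => (p.1, p.2 * z⁻¹ * h) :=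
      continuous_fst.prodMk ((continuous_snd.mul continuous_const).mul continuous_const)
    exact hf.comp hm
  · intro d hd hd1
    show Continuous (fun p : Ω × G F =>
      ((Real.sqrt (Ideal.absNorm v.asIdeal : ℝ) : ℝ) : ℂ)⁻¹
          * ∑ h ∈ H, dStep589 v H z (d + 1) (f p.1) (p.2 * z⁻¹ * h)
        - dStep589 v H z d (f p.1) (p.2 * z⁻¹))
    refine Continuous.sub (continuous_const.mul (continuous_finsetSum _ fun h _ => ?_)) ?_
    · have hm : Continuous fun p : Ω × G F => (p.1, p.2 * z⁻¹ * h) :=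
        continuous_fst.prodMk ((continuous_snd.mul continuous_const).mul continuous_const)
      exact hd1.comp hm
    · have hm : Continuous fun p : Ω × G F => (p.1, p.2 * z⁻¹) :=
        continuous_fst.prodMk (continuous_snd.mul continuous_const)
      exact hd.comp hm

/-! ## ShT.5 -/

/-- **LEAF ShT.5 `DSuppC311`**, VERBATIM. -/
theorem dSuppC311_h90 (F : Type) [Field F] [NumberField F] : H311.DSuppC311 F := by
  intro Ω f C hC hfC v H z d
  -- the translates
  have hT : ∀ C₁ : Set (G F), IsCompact C₁ →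
      IsCompact (⋃ h ∈ H, (fun g : G F => g * (z⁻¹ * h)⁻¹) '' C₁) := by
    intro C₁ hC₁
    exact H.finite_toSet.isCompact_biUnion fun h _ =>
      hC₁.image (continuous_id.mul continuous_const)
  have hTmem : ∀ (C₁ : Set (G F)) (g h : G F), h ∈ H → g * z⁻¹ * h ∈ C₁ →
      g ∈ ⋃ h ∈ H, (fun g : G F => g * (z⁻¹ * h)⁻¹) '' C₁ := by
    intro C₁ g h hh hg
    refine Set.mem_biUnion (show h ∈ (H : Set (G F)) from hh) ⟨g * z⁻¹ * h, hg, ?_⟩
    show g * z⁻¹ * h * (z⁻¹ * h)⁻¹ = g
    group
  refine two_step90 (fun d => ∃ C' : Set (G F), IsCompact C' ∧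
      ∀ (a : Ω) (h : G F), dStep589 v H z d (f a) h ≠ 0 → h ∈ C') ?_ ?_ ?_ d
  · refine ⟨C, hC, fun a h hne => hfC a h ?_⟩
    intro h0
    apply hne
    rw [dStep_zero90, h0, mul_zero]
  · refine ⟨_, hT C hC, fun a g hne => ?_⟩
    rw [dStep_one90] at hne
    have hsum : ∑ h ∈ H, f a (g * z⁻¹ * h) ≠ 0 := right_ne_zero_of_mul hne
    obtain ⟨h, hh, hne'⟩ := Finset.exists_ne_zero_of_sum_ne_zero hsum
    exact hTmem C g h hh (hfC a _ hne')
  · rintro d ⟨C₀, hC₀, h₀⟩ ⟨C₁, hC₁, h₁⟩
    refine ⟨(⋃ h ∈ H, (fun g : G F => g * (z⁻¹ * h)⁻¹) '' C₁) ∪ (fun g : G F => g * z) '' C₀,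
      (hT C₁ hC₁).union (hC₀.image (continuous_id.mul continuous_const)), fun a g hne => ?_⟩
    rw [dStep_succ90] at hne
    by_cases hs : dStep589 v H z d (f a) (g * z⁻¹) = 0
    · rw [hs, sub_zero] at hne
      have hsum : ∑ h ∈ H, dStep589 v H z (d + 1) (f a) (g * z⁻¹ * h) ≠ 0 :=
        right_ne_zero_of_mul hne
      obtain ⟨h, hh, hne'⟩ := Finset.exists_ne_zero_of_sum_ne_zero hsum
      exact Or.inl (hTmem C₁ g h hh (h₁ a _ hne'))
    · refine Or.inr ⟨g * z⁻¹, h₀ a _ hs, ?_⟩
      show g * z⁻¹ * z = g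
      group

/-! ## ShT.6 -/

/-- **LEAF ShT.6 `DIntC311`**, VERBATIM. -/
theorem dIntC311_h90 (F : Type) [Field F] [NumberField F] : H311.DIntC311 F := by
  intro Ω _ _ _ _ ν _ f hf φ hφ v H z d
  have hcont := dContC311_h90 F Ω f hf v H z
  -- integrability of the sections
  have hint : ∀ (d : ℕ) (g : G F), Integrable (fun a : Ω => dStep589 v H z d (f a) g) ν := by
    intro d g
    have hc : Continuous fun a : Ω => dStep589 v H z d (f a) g :=
      (hcont d).comp (continuous_id.prodMk continuous_const)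
    exact hc.integrable_of_hasCompactSupport (HasCompactSupport.of_compactSpace _)
  refine two_step90 (fun d => ∀ h : G F, dStep589 v H z d φ h
      = ∫ a, dStep589 v H z d (f a) h ∂ν) ?_ ?_ ?_ d
  · intro h
    simp only [dStep_zero90]
    rw [integral_const_mul, hφ h]
  · intro h
    simp only [dStep_one90]
    rw [integral_const_mul, integral_finsetSum]
    · congr 1
      exact Finset.sum_congr rfl fun x _ => hφ _
    · intro x _
      have := hint 0 (h * z⁻¹ * x)
      simp only [dStep_zero90] at this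
      have h2 : Integrable (fun a : Ω => (2 : ℂ)⁻¹ * (2 * f a (h * z⁻¹ * x))) ν :=
        this.const_mul _
      refine h2.congr (Filter.Eventually.of_forall fun a => ?_)
      show (2 : ℂ)⁻¹ * (2 * f a (h * z⁻¹ * x)) = f a (h * z⁻¹ * x)
      rw [← mul_assoc, inv_mul_cancel₀ (two_ne_zero), one_mul]
  · intro d hd hd1 h
    simp only [dStep_succ90]
    rw [integral_sub, integral_const_mul, integral_finsetSum]
    · congr 1
      · congr 1
        exact Finset.sum_congr rfl fun x _ => hd1 _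
      · exact hd _
    · intro x _
      exact hint (d + 1) _
    · refine Integrable.const_mul ?_ _
      exact integrable_finsetSum _ fun x _ => hint (d + 1) _
    · exact hint d _

end Fermat.Agent.LT.T7.H90D

end
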