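import Mathlib
import Fermat.Agent.LT.T7.H311.ShapeTSpec
import Fermat.Agent.LT.T7.H90.DStep311

/-!
# Row LT, tower T7, cut of `ShapeTC589` (helper311): LEAF ShT.3' `SphRecC311` (helper90)

OFF-MAIN.  Spec: `T7/H311/ShapeTSpec.lean` (helper311, byte-identical copy, with its closure).
No hole, nothing assumed, UNCONDITIONAL.

    sphRecC311_h90 (F) : H311.SphRecC311 F        (= SphTC311 F → SS503.SphShiftC503 → SphDC311 F)

Two-step induction on `d`: `locD311 0 ψ = 2 ψ` (values `2 • A`), `locD311 1 ψ = locT311 ψ`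
(`SphTC311`), `locD311 (d+2) ψ = locT311 (locD311 (d+1) ψ) - locS311 (locD311 d ψ)` (values
`B - shA503 1 A_d`); the Satake transform is linear and the shift by `(1, 1)` multiplies it by
`x y`; `(x + y)(x^{d+1} + y^{d+1}) - x y (x^d + y^d) = x^{d+2} + y^{d+2}`.
-/

set_option autoImplicit false
set_option linter.style.haveILetI false

open AutomorphicForm IsDedekindDomain NumberField MeasureTheory

noncomputable section

namespace Fermat.Agent.LT.T7.H90D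

open Fermat.Agent.LT Fermat.Agent.LT.H556 Fermat.Agent.LT.H556.A0 Fermat.Agent.LT.T7
open Fermat.Agent.LT.T7.H305 Fermat.Agent.LT.T7.H893 Fermat.Agent.LT.T7.B981

/-! ## The Satake transform -/

theorem satT_eq90 (q : ℕ) (A : (ℤ × ℤ) →₀ ℂ) (x y : ℂ) :
    satT893 q A x y = A.sum fun lam c => c * T6.satake q lam x y := rfl

theorem satT_smul90 (q : ℕ) (a : ℂ) (A : (ℤ × ℤ) →₀ ℂ) (x y : ℂ) :
    satT893 q (a • A) x y = a * satT893 q A x y := by
  rw [satT_eq90, satT_eq90, Finsupp.sum_smul_index (fun i => by rw [zero_mul]), Finsupp.mul_sum]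
  refine Finsupp.sum_congr fun lam _ => ?_
  rw [mul_assoc]

theorem satT_sub90 (q : ℕ) (A B : (ℤ × ℤ) →₀ ℂ) (x y : ℂ) :
    satT893 q (A - B) x y = satT893 q A x y - satT893 q B x y := by
  rw [satT_eq90, satT_eq90, satT_eq90]
  exact Finsupp.sum_sub_index fun a b₁ b₂ => sub_mul _ _ _

theorem satake_shift90 (q : ℕ) (lam : ℤ × ℤ) (x y : ℂ) (hx : x ≠ 0) (hy : y ≠ 0) :
    T6.satake q (lam.1 + 1, lam.2 + 1) x y = x * y * T6.satake q lam x y := by
  show (x * y) ^ (lam.2 + 1) * T6.satPoly q x y ((lam.1 + 1) - (lam.2 + 1)).toNat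
    = x * y * ((x * y) ^ lam.2 * T6.satPoly q x y (lam.1 - lam.2).toNat)
  have e : (lam.1 + 1) - (lam.2 + 1) = lam.1 - lam.2 := by ring
  rw [e, zpow_add_one₀ (mul_ne_zero hx hy)]
  ring

theorem satT_shift90 (q : ℕ) (A : (ℤ × ℤ) →₀ ℂ) (x y : ℂ) (hx : x ≠ 0) (hy : y ≠ 0) :
    satT893 q (SS503.shA503 1 A) x y = x * y * satT893 q A x y := by
  have e : SS503.shA503 1 A = A.mapDomain fun lam => (lam.1 + 1, lam.2 + 1) := rfl
  rw [satT_eq90, satT_eq90, e,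
    Finsupp.sum_mapDomain_index (fun _ => by rw [zero_mul]) (fun _ _ _ => add_mul _ _ _),
    Finsupp.mul_sum]
  refine Finsupp.sum_congr fun lam _ => ?_
  rw [satake_shift90 q lam x y hx hy]
  ring

/-! ## Spherical functions -/

variable {k : Type} [Field k] [Valued k T6.Γ₀]

theorem isSph_iff90 (φ : GL (Fin 2) k → ℂ) (A : (ℤ × ℤ) →₀ ℂ) :
    IsSphFn893 φ A ↔ (∀ lam ∈ A.support, lam.2 ≤ lam.1) ∧ ∀ x : GL (Fin 2) k, φ x = A (T6.cartan x) :=
  Iff.rfl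

theorem isSph_smul90 (a : ℂ) (φ : GL (Fin 2) k → ℂ) (A : (ℤ × ℤ) →₀ ℂ) (h : IsSphFn893 φ A) :
    IsSphFn893 (fun x => a * φ x) (a • A) := by
  rw [isSph_iff90] at h ⊢
  refine ⟨fun lam hlam => h.1 lam (Finsupp.support_smul hlam), fun x => ?_⟩
  rw [h.2 x, Finsupp.smul_apply, smul_eq_mul]

theorem isSph_sub90 (φ₁ φ₂ : GL (Fin 2) k → ℂ) (A₁ A₂ : (ℤ × ℤ) →₀ ℂ) (h₁ : IsSphFn893 φ₁ A₁)
    (h₂ : IsSphFn893 φ₂ A₂) : IsSphFn893 (fun x => φ₁ x - φ₂ x) (A₁ - A₂) := by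
  rw [isSph_iff90] at h₁ h₂ ⊢
  refine ⟨fun lam hlam => ?_, fun x => ?_⟩
  · have := Finsupp.support_sub hlam
    rcases Finset.mem_union.mp this with h | h
    · exact h₁.1 lam h
    · exact h₂.1 lam h
  · rw [h₁.2 x, h₂.2 x, Finsupp.sub_apply]

/-! ## The recursion of `locD311` -/

variable {F : Type} [Field F] [NumberField F]

theorem locD_zero90 (v : HeightOneSpectrum (𝓞 F)) (H : Finset (G F)) (z : G F)
    (ψ : GL (Fin 2) (v.adicCompletion F) → ℂ) :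
    H311.locD311 v H z 0 ψ = fun x => 2 * ψ x := rfl

theorem locD_one90 (v : HeightOneSpectrum (𝓞 F)) (H : Finset (G F)) (z : G F)
    (ψ : GL (Fin 2) (v.adicCompletion F) → ℂ) :
    H311.locD311 v H z 1 ψ = H311.locT311 v H z ψ := rfl

theorem locD_succ90 (v : HeightOneSpectrum (𝓞 F)) (H : Finset (G F)) (z : G F) (d : ℕ)
    (ψ : GL (Fin 2) (v.adicCompletion F) → ℂ) :
    H311.locD311 v H z (d + 2) ψ = fun x =>
      H311.locT311 v H z (H311.locD311 v H z (d + 1) ψ) x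
        - (fun x => H311.locD311 v H z d ψ (x * (finGL305 v z)⁻¹)) x := rfl

/-- **LEAF ShT.3' `SphRecC311`**, VERBATIM. -/
theorem sphRecC311_h90 (F : Type) [Field F] [NumberField F] : H311.SphRecC311 F := by
  intro hT hSh v H z hH hz d ψ A hA
  set q : ℕ := Ideal.absNorm v.asIdeal with hq
  -- the scalar uniformiser
  obtain ⟨_, c₀, hc₀, hzc⟩ := hz
  have hcmat : (((finGL305 v z : GL (Fin 2) (v.adicCompletion F)))
      : Matrix (Fin 2) (Fin 2) (v.adicCompletion F)) = Matrix.diagonal (fun _ => c₀) := hzc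
  have hshift : ∀ (φ : GL (Fin 2) (v.adicCompletion F) → ℂ) (B : (ℤ × ℤ) →₀ ℂ),
      IsSphFn893 φ B →
        IsSphFn893 (fun x => φ (x * (finGL305 v z)⁻¹)) (SS503.shA503 1 B) := by
    intro φ B hB
    have := hSh (v.adicCompletion F) (finGL305 v z) c₀ hc₀ hcmat 1 φ B hB
    have e : (finGL305 v z) ^ (-(1 : ℤ)) = (finGL305 v z)⁻¹ := zpow_neg_one _
    rw [e] at this
    exact this
  have hz' : IsScalarUniformizerAt v z := ⟨‹_›, c₀, hc₀, hzc⟩
  refine two_step90 (fun d => ∃ A' : (ℤ × ℤ) →₀ ℂ, IsSphFn893 (H311.locD311 v H z d ψ) A' ∧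
      ∀ x y : ℂ, x ≠ 0 → y ≠ 0 → satT893 q A' x y = (x ^ d + y ^ d) * satT893 q A x y)
    ?_ ?_ ?_ d
  · refine ⟨(2 : ℂ) • A, ?_, fun x y _ _ => ?_⟩
    · rw [locD_zero90]
      exact isSph_smul90 2 ψ A hA
    · rw [satT_smul90, pow_zero, pow_zero]
      norm_num
  · obtain ⟨A', hA', hs⟩ := hT v H z hH hz' ψ A hA
    refine ⟨A', ?_, fun x y hx hy => ?_⟩
    · rw [locD_one90]
      exact hA'
    · rw [hs x y hx hy, pow_one, pow_one]
  · rintro d ⟨A₀, hA₀, hs₀⟩ ⟨A₁, hA₁, hs₁⟩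
    obtain ⟨B, hB, hsB⟩ := hT v H z hH hz' _ A₁ hA₁
    have hS := hshift _ A₀ hA₀
    refine ⟨B - SS503.shA503 1 A₀, ?_, fun x y hx hy => ?_⟩
    · rw [locD_succ90]
      exact isSph_sub90 _ _ _ _ hB hS
    · rw [satT_sub90, hsB x y hx hy, hs₁ x y hx hy, satT_shift90 q A₀ x y hx hy, hs₀ x y hx hy]
      ring

end Fermat.Agent.LT.T7.H90D

end
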